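import Fermat.Agent.Ribet.H704.EisSpec
import Fermat.Agent.Ribet.H884.EisSpec

/-!
# RIBET row 38, (S4) = `H884.EisSlopeStatement`: SLOPE-FREE glue (helper751)

`H704.Eis.eisSlope_of` consumes `H704.Eis.EisOutStatement`, whose modular unit `D` must satisfy
`UnitData.slope` (`FinGenOff (D ^ n) → p ∣ n`: the slopes of `D` are not all divisible by `p`;
this needs the existence of a supersingular point and the exact slope of `D` there).

That field is NOT needed: instead of eliminating `f` (which gives `p ∣ i (ℓ + 1 - a_ℓ)`) one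
eliminates `D`:

    FinGenOff (f · D^i)                       (EIS-OUT)
    ⇒ FinGenOff (T_ℓ f · (T_ℓ D)^i)           (HECKE for functions)
    ⇒ FinGenOff (f^{a_ℓ} · D^{i(ℓ+1)})        (KUMEIG, `T_ℓ D ≈ D^{ℓ+1}`)
    ⇒ FinGenOff (f^{a_ℓ - (ℓ+1)})             (divide by `(f · D^i)^{ℓ+1}`)
    ⇒ FinGen   (f^{a_ℓ - (ℓ+1)})              (OFF-FIN: it is a Kummer generator of
                                               `(a_ℓ - (ℓ+1)) • x`)
    ⇒ `T_ℓ x - (ℓ+1) x = (a_ℓ - (ℓ+1)) • x ∈ 𝓕`.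

* `UnitDataW`          : `UnitData` without `slope`;
* `EisOutWStatement`   : `EisOutStatement` with `UnitDataW` (WEAKER leaf);
* `eisOutW_of_eisOut`  : `EisOutStatement → EisOutWStatement`;
* **`eisSlope_of_weak`** : the glue of `H704.Eis.eisSlope_of` with `EisOutWStatement`;
* `unitDataW_of_expansion` : `UnitDataW D` for every `D ≠ 0` such that `T_ℓ D = c · D^(ℓ+1)`
  (e.g. the modular unit `Δ(t^p)/Δ(t)`, by UNIT-EIS + NORM-ID).
-/

set_option autoImplicit false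
set_option linter.style.haveILetI false
set_option synthInstance.maxHeartbeats 400000
set_option maxHeartbeats 1000000

noncomputable section

namespace Fermat.Agent.Ribet.H751.Eis

open AlgebraicCurve ModularCurve HahnSeries
open Fermat.Agent.S24 Fermat.Agent.A2.H708 Fermat.Agent.A2.H528
open Fermat.Agent.Ribet.Spec Fermat.Agent.Ribet.H944.Wall Fermat.Agent.Ribet.H884
open Fermat.Agent.Ribet.H944.I2 Fermat.Agent.S37.H697
open Fermat.Agent.Ribet.H704.Eis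

section Defs

variable (p M' : ℕ) [NeZero (p * M')] (A : ValuationSubring Kbar)

/-- `UnitData` WITHOUT the field `slope`: `D ≠ 0` and `T_ℓ D / D ^ (ℓ + 1)` has slopes `0` away
from the cusps. -/
structure UnitDataW (D : FF (p * M')) : Prop where
  ne_zero : D ≠ 0
  hecke : ∀ (ℓ : ℕ) [NeZero ℓ], ℓ.Prime → ¬ ℓ ∣ p * M' →
    FinGenOff p M' A (hNorm (p * M') ℓ D * (D ^ (ℓ + 1))⁻¹)

end Defs

theorem unitDataW_of_unitData {p M' : ℕ} [NeZero (p * M')] {A : ValuationSubring Kbar}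
    {D : FF (p * M')} (h : UnitData p M' A D) : UnitDataW p M' A D :=
  ⟨h.ne_zero, fun ℓ _ hℓ hℓN => h.hecke ℓ hℓ hℓN⟩

/-- `UnitDataW` for an Eisenstein eigenfunction: `T_ℓ D = c · D ^ (ℓ + 1)`. -/
theorem unitDataW_of_eigen {p M' : ℕ} [NeZero (p * M')] {A : ValuationSubring Kbar}
    {D : FF (p * M')} (hD : D ≠ 0)
    (h : ∀ (ℓ : ℕ) [NeZero ℓ], ℓ.Prime → ¬ ℓ ∣ p * M' →
      ∃ c : Kbar, c ≠ 0 ∧ hNorm (p * M') ℓ D = algebraMap Kbar (FF (p * M')) c * D ^ (ℓ + 1)) :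
    UnitDataW p M' A D := by
  refine ⟨hD, fun ℓ _ hℓ hℓN => ?_⟩
  obtain ⟨c, hc, he⟩ := h ℓ hℓ hℓN
  have e : hNorm (p * M') ℓ D * (D ^ (ℓ + 1))⁻¹ = algebraMap Kbar (FF (p * M')) c := by
    rw [he, mul_assoc, mul_inv_cancel₀ (pow_ne_zero _ hD), mul_one]
  rw [e]
  exact finGenOff_const hc

/-- `UnitDataW` for THE modular unit `Δ(t^p)/Δ(t)` (`H884.IsModUnit`), from UNIT-EIS
(`H884.UnitEisStatement`) and NORM-ID (the `t`-expansion of `Nm_α(β f)` is the formal Kronecker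
norm, `H398.coe_heckeNorm_eq_kronNorm`). -/
theorem unitDataW_of_isModUnit {p M' : ℕ} [NeZero p] [NeZero (p * M')]
    {A : ValuationSubring Kbar} (hUE : UnitEisStatement)
    (hNI : ∀ (N ℓ : ℕ) [NeZero N] [NeZero ℓ], ℓ.Prime → ¬ ℓ ∣ N → ∀ f : FF N,
      ((hNorm N ℓ f : FF N) : LaurentSeries Kbar) =
        Fermat.Agent.S37.H400.kronNorm ℓ (f : LaurentSeries Kbar))
    (hp : p.Prime) {D : FF (p * M')} (hD0 : D ≠ 0) (hD : IsModUnit p M' D) :
    UnitDataW p M' A D := by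
  refine unitDataW_of_eigen hD0 fun ℓ _ hℓ hℓN => ?_
  have hℓp : ℓ ≠ p := by
    rintro rfl
    exact hℓN (dvd_mul_right _ _)
  obtain ⟨c, hc, he⟩ := hUE p (⟨ℓ, hℓ⟩ : Nat.Primes) hp hℓp
  refine ⟨c, hc, ?_⟩
  apply Subtype.ext
  have h1 := hNI (p * M') ℓ hℓ hℓN D
  have hD' : (D : LaurentSeries Kbar) = Fermat.Agent.S28.unitL Kbar p := hD
  rw [hD'] at h1
  have he' : Fermat.Agent.S37.H400.kronNorm ℓ (Fermat.Agent.S28.unitL Kbar p) =
      cst c * Fermat.Agent.S28.unitL Kbar p ^ (ℓ + 1) := he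
  rw [he'] at h1
  have hcoe : ((algebraMap Kbar (FF (p * M')) c * D ^ (ℓ + 1) : FF (p * M')) :
      LaurentSeries Kbar) = cst c * (D : LaurentSeries Kbar) ^ (ℓ + 1) := rfl
  rw [hcoe, hD']
  exact h1

/-- **EIS-OUT, weak form** (no slope condition on the modular unit). -/
def EisOutWStatement : Prop :=
  ∀ (p M' : ℕ) [NeZero M'] [NeZero p] [NeZero (p * M')], p.Prime → 5 ≤ p → ¬ p ∣ M' →
    ∀ A : ValuationSubring Kbar, A.LiesOverPrime p →
    ∀ (S : Finset ℕ) (a : ℕ → ℤ) (x t : JZero (p * M')),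
      IsNewTors p M' x → EigenAt (p * M') S a x →
      IsNewTors p M' t → EigenAt (p * M') S a t →
      (∀ σ ∈ A.inertiaSubgroupIn ℚ, ∀ c : ℕ, CycloAt p σ c → σ • t = c • t) →
      (∀ σ ∈ A.inertiaSubgroupIn ℚ, ∃ n : ℕ, σ • x = x + n • t) →
      (∀ σ : GQ, PeuFixes A p σ → σ • x = x) →
      ∃ f : FF (p * M'), IsKummerGen (p * M') p f x ∧
        (FinGenOff p M' A f ∨
          ∃ (D : FF (p * M')) (i : ℤ), UnitDataW p M' A D ∧ FinGenOff p M' A (f * D ^ i))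

theorem eisOutW_of_eisOut (h : EisOutStatement) : EisOutWStatement := by
  intro p M' _ _ _ hp hp5 hpM A hA S a x t hx hex ht het hχ hsh hpeu
  obtain ⟨f, hfK, hcase⟩ := h p M' hp hp5 hpM A hA S a x t hx hex ht het hχ hsh hpeu
  refine ⟨f, hfK, ?_⟩
  rcases hcase with hf | ⟨D, i, hD, hfD⟩
  · exact Or.inl hf
  · exact Or.inr ⟨D, i, unitDataW_of_unitData hD, hfD⟩

/-- Integer powers of Kummer generators. -/
theorem isKummerGen_zpow {N : ℕ} [NeZero N] {p : ℕ} {f : FF N} {x : JZero N}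
    (h : IsKummerGen N p f x) (m : ℤ) : IsKummerGen N p (f ^ m) (m • x) := by
  rcases m with m | m
  · have h1 := IsKummerGen.pow h m
    simpa using h1
  · have h1 := (IsKummerGen.pow h (m + 1)).inv
    rw [zpow_negSucc, negSucc_zsmul]
    exact h1

section Glue

variable {p M' : ℕ} [NeZero (p * M')] {A : ValuationSubring Kbar}

/-- **(S4) = EIS from its leaves, with the WEAK form of EIS-OUT.** -/
theorem eisSlope_of_weak (hEx : RedExistsStatement) (hRF : RedFieldStatement)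
    (hRes : ResFieldStatement) (hK : KumEigStatement) (hFH : FrickeHeckeStatement)
    (hHR : HeckeRedStatement) (hKO : KnormOffStatement) (hOF : OffFinStatement)
    (hEO : EisOutWStatement) : EisSlopeStatement := by
  intro p M' _ _ _ hp hp5 hpM A hA S a x t hx hex ht het hχ hsh hpeu
  obtain ⟨f, hfK, hcase⟩ := hEO p M' hp hp5 hpM A hA S a x t hx hex ht het hχ hsh hpeu
  have hf0 : f ≠ 0 := hfK.1
  -- a power `f ^ m` which is `FinGenOff` gives `m • x ∈ 𝓕`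
  have hmem : ∀ m : ℤ, FinGenOff p M' A (f ^ m) → m • x ∈ finPart p M' A := by
    intro m hm
    exact AddSubgroup.subset_closure
      ⟨f ^ m, isKummerGen_zpow hfK m, hOF p M' hp hpM A hA (m • x) (f ^ m)
        (isKummerGen_zpow hfK m) hm⟩
  rcases hcase with hf | ⟨D, i, hD, hfD⟩
  · -- `x ∈ 𝓕`
    have hxF : x ∈ finPart p M' A := by
      have h1 := hmem 1 (by rwa [zpow_one])
      rwa [one_zsmul] at h1
    refine ⟨S, fun ℓ hℓ => ?_⟩
    rw [hex ℓ hℓ]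
    exact (finPart p M' A).sub_mem ((finPart p M' A).zsmul_mem hxF _)
      ((finPart p M' A).nsmul_mem hxF _)
  have hD0 : D ≠ 0 := hD.ne_zero
  refine ⟨S ∪ (p * M').primeFactors, fun ℓ hℓ => ?_⟩
  have hℓS : (ℓ : ℕ) ∉ S := fun h => hℓ (Finset.mem_union_left _ h)
  have hℓN : ¬ (ℓ : ℕ) ∣ p * M' := by
    intro hd
    exact hℓ (Finset.mem_union_right _
      (Nat.mem_primeFactors.mpr ⟨ℓ.2, hd, NeZero.ne (p * M')⟩))
  haveI : NeZero (ℓ : ℕ) := ⟨ℓ.2.ne_zero⟩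
  obtain ⟨c, G, hc, hG, hX⟩ := hK (p * M') p hp.ne_zero S a x f hfK hex (ℓ : ℕ) ℓ.2 hℓS hℓN
  set X := hNorm (p * M') (ℓ : ℕ) f with hXdef
  set Y := hNorm (p * M') (ℓ : ℕ) D with hYdef
  set c' : FF (p * M') := algebraMap Kbar (FF (p * M')) c with hc'def
  have hc'0 : c' ≠ 0 := by
    rw [hc'def]
    exact (map_ne_zero (algebraMap Kbar (FF (p * M')))).mpr hc
  -- step (a): `T_ℓ (f D^i)`
  have ha : FinGenOff p M' A (X * Y ^ i) := by
    have h := finGenOff_hNorm hFH hHR hRes hKO hp hpM hA ℓ.2 hℓN hfD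
    have e : hNorm (p * M') (ℓ : ℕ) (f * D ^ i) = X * Y ^ i := by
      rw [hXdef, hYdef, ← hNorm_zpow' _ _ hD0]
      exact Fermat.Agent.S29.H395.heckeNorm_mul _ _ _ _
    rwa [e] at h
  have hYD := hD.hecke (ℓ : ℕ) ℓ.2 hℓN
  have hY0 : Y ≠ 0 := by
    obtain ⟨r₁, -, h1, -⟩ := hYD
    have := (isRedInf_ne_zero _ A h1).1
    exact left_ne_zero_of_mul this
  have hfa0 : f ^ (a ℓ) ≠ 0 := zpow_ne_zero _ hf0
  have hGp0 : G ^ p ≠ 0 := pow_ne_zero _ hG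
  have hYi0 : Y ^ i ≠ 0 := zpow_ne_zero _ hY0
  have hDl0 : D ^ ((ℓ : ℕ) + 1) ≠ 0 := pow_ne_zero _ hD0
  have hDli0 : (D ^ ((ℓ : ℕ) + 1)) ^ i ≠ 0 := zpow_ne_zero _ hDl0
  have hDi0 : D ^ i ≠ 0 := zpow_ne_zero _ hD0
  have hfl0 : f ^ ((ℓ : ℕ) + 1) ≠ 0 := pow_ne_zero _ hf0
  have hDil0 : (D ^ i) ^ ((ℓ : ℕ) + 1) ≠ 0 := pow_ne_zero _ hDi0
  -- step (b): `f^{a_ℓ} (T_ℓ D)^i`
  have hb : FinGenOff p M' A (f ^ (a ℓ) * Y ^ i) := by
    have e : f ^ (a ℓ) * Y ^ i = X * Y ^ i * c'⁻¹ * (G ^ p)⁻¹ := by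
      rw [hX]
      field_simp
    rw [e]
    exact finGenOff_mul (finGenOff_mul ha (finGenOff_inv (finGenOff_const hc)))
      (finGenOff_inv (finGenOff_pow_p hEx hRF hp hpM hA hG))
  -- step (e): `(T_ℓ D / D^{ℓ+1})^i`
  have he : FinGenOff p M' A (Y ^ i * ((D ^ ((ℓ : ℕ) + 1)) ^ i)⁻¹) := by
    have h := finGenOff_zpow hYD i
    rwa [mul_zpow, inv_zpow] at h
  -- step (c): `(f D^i)^{ℓ+1}`
  have hc2 : FinGenOff p M' A (f ^ ((ℓ : ℕ) + 1) * (D ^ i) ^ ((ℓ : ℕ) + 1)) := by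
    have h := finGenOff_zpow hfD (((ℓ : ℕ) + 1 : ℕ) : ℤ)
    rwa [zpow_natCast, mul_pow] at h
  -- `(D^{ℓ+1})^i = (D^i)^{ℓ+1}`
  have hsw : (D ^ ((ℓ : ℕ) + 1)) ^ i = (D ^ i) ^ ((ℓ : ℕ) + 1) := by
    rw [← zpow_natCast D, ← zpow_mul, ← zpow_natCast (D ^ i), ← zpow_mul]
    exact congrArg (fun n : ℤ => D ^ n) (mul_comm _ _)
  -- step (d): `f^{a_ℓ} / f^{ℓ+1}`
  have hd : FinGenOff p M' A (f ^ (a ℓ) * (f ^ ((ℓ : ℕ) + 1))⁻¹) := by
    have e : f ^ (a ℓ) * (f ^ ((ℓ : ℕ) + 1))⁻¹ =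
        f ^ (a ℓ) * Y ^ i * (Y ^ i * ((D ^ ((ℓ : ℕ) + 1)) ^ i)⁻¹)⁻¹ *
          (f ^ ((ℓ : ℕ) + 1) * (D ^ i) ^ ((ℓ : ℕ) + 1))⁻¹ := by
      rw [hsw]
      field_simp
    rw [e]
    exact finGenOff_mul (finGenOff_mul hb (finGenOff_inv he)) (finGenOff_inv hc2)
  have hd' : FinGenOff p M' A (f ^ (a ℓ - (((ℓ : ℕ) + 1 : ℕ) : ℤ))) := by
    rw [zpow_sub₀ hf0, zpow_natCast, div_eq_mul_inv]
    exact hd
  have hfin := hmem _ hd'
  rw [hex ℓ hℓS]
  have e : a ℓ • x - ((ℓ : ℕ) + 1) • x = (a ℓ - (((ℓ : ℕ) + 1 : ℕ) : ℤ)) • x := by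
    rw [sub_smul, natCast_zsmul]
  rw [e]
  exact hfin

/-- **(S4) = EIS** from the original leaves (`H704.Eis.eisSlope_of`, reproved without using
`UnitData.slope`). -/
theorem eisSlope_of_noSlope (hEx : RedExistsStatement) (hRF : RedFieldStatement)
    (hRes : ResFieldStatement) (hK : KumEigStatement) (hFH : FrickeHeckeStatement)
    (hHR : HeckeRedStatement) (hKO : KnormOffStatement) (hOF : OffFinStatement)
    (hEO : EisOutStatement) : EisSlopeStatement :=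
  eisSlope_of_weak hEx hRF hRes hK hFH hHR hKO hOF (eisOutW_of_eisOut hEO)

end Glue

end Fermat.Agent.Ribet.H751.Eis

end
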