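import Mathlib

/-!
# RIBET row 38, WALL-p, I3 leaf LOGHOL (helper751), part 1: formal expansions

Pure algebra (Mathlib only).  Let `A` be a commutative `K`-algebra (`K` a field) and `t ∈ A` such
that every `a ∈ A` can be written UNIQUELY as `a = c + t·b` with `c ∈ K`, `b ∈ A`
(e.g. `A` a discrete valuation ring containing its residue field `K`, `t` a uniformiser).
Then the `t`-adic expansion

  `expand E : A →ₐ[K] K⟦X⟧`,  `a ↦ ∑ₙ ε(σⁿ a) Xⁿ`   (`a = ε a + t·σ a`)

is a `K`-algebra homomorphism with `expand E t = X`, `constantCoeff (expand E a) = ε a`, and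
`expand E a = 0 → ∀ n, t ^ n ∣ a`.
-/

set_option autoImplicit false

noncomputable section

namespace Fermat.Agent.Ribet.H751

open PowerSeries

/-- Expansion data: unique decompositions `a = ε a + t · σ a`. -/
structure ExpandData (K A : Type*) [Field K] [CommRing A] [Algebra K A] where
  /-- the parameter -/
  t : A
  /-- the constant term -/
  eps : A → K
  /-- the shift -/
  sh : A → A
  dec : ∀ a : A, a = algebraMap K A (eps a) + t * sh a
  uniq : ∀ (c : K) (b : A), algebraMap K A c + t * b = 0 → c = 0 ∧ b = 0

namespace ExpandData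

variable {K A : Type*} [Field K] [CommRing A] [Algebra K A] (E : ExpandData K A)

theorem eps_sh_eq {a : A} {c : K} {b : A} (h : a = algebraMap K A c + E.t * b) :
    E.eps a = c ∧ E.sh a = b := by
  have h1 := E.dec a
  have h2 : algebraMap K A (E.eps a - c) + E.t * (E.sh a - b) = 0 := by
    rw [map_sub, mul_sub]
    linear_combination h - h1
  obtain ⟨h3, h4⟩ := E.uniq _ _ h2
  exact ⟨sub_eq_zero.mp h3, sub_eq_zero.mp h4⟩

theorem eps_eq {a : A} {c : K} {b : A} (h : a = algebraMap K A c + E.t * b) : E.eps a = c :=
  (E.eps_sh_eq h).1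

theorem sh_eq {a : A} {c : K} {b : A} (h : a = algebraMap K A c + E.t * b) : E.sh a = b :=
  (E.eps_sh_eq h).2

theorem dec_add (a b : A) :
    a + b = algebraMap K A (E.eps a + E.eps b) + E.t * (E.sh a + E.sh b) := by
  conv_lhs => rw [E.dec a, E.dec b]
  rw [map_add]
  ring

theorem dec_mul (a b : A) :
    a * b = algebraMap K A (E.eps a * E.eps b) +
      E.t * (algebraMap K A (E.eps a) * E.sh b + E.sh a * b) := by
  conv_lhs => rw [E.dec a]
  conv_lhs => rw [add_mul]; arg 1; rw [E.dec b]
  rw [map_mul]
  ring

theorem dec_algebraMap (c : K) : algebraMap K A c = algebraMap K A c + E.t * 0 := by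
  rw [mul_zero, add_zero]

theorem dec_t : E.t = algebraMap K A 0 + E.t * 1 := by
  rw [map_zero, zero_add, mul_one]

@[simp] theorem eps_add (a b : A) : E.eps (a + b) = E.eps a + E.eps b := E.eps_eq (E.dec_add a b)
@[simp] theorem sh_add (a b : A) : E.sh (a + b) = E.sh a + E.sh b := E.sh_eq (E.dec_add a b)
@[simp] theorem eps_mul (a b : A) : E.eps (a * b) = E.eps a * E.eps b := E.eps_eq (E.dec_mul a b)
theorem sh_mul (a b : A) :
    E.sh (a * b) = algebraMap K A (E.eps a) * E.sh b + E.sh a * b := E.sh_eq (E.dec_mul a b)
@[simp] theorem eps_algebraMap (c : K) : E.eps (algebraMap K A c) = c :=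
  E.eps_eq (E.dec_algebraMap c)
@[simp] theorem sh_algebraMap (c : K) : E.sh (algebraMap K A c) = 0 :=
  E.sh_eq (E.dec_algebraMap c)
@[simp] theorem eps_t : E.eps E.t = 0 := E.eps_eq E.dec_t
@[simp] theorem sh_t : E.sh E.t = 1 := E.sh_eq E.dec_t

@[simp] theorem eps_zero : E.eps 0 = 0 := by
  have := E.eps_algebraMap 0
  rwa [map_zero] at this

@[simp] theorem sh_zero : E.sh 0 = 0 := by
  have := E.sh_algebraMap 0
  rwa [map_zero] at this

@[simp] theorem eps_one : E.eps 1 = 1 := by
  have := E.eps_algebraMap 1
  rwa [map_one] at this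

@[simp] theorem sh_one : E.sh 1 = 0 := by
  have := E.sh_algebraMap 1
  rwa [map_one] at this

/-- The `t`-adic expansion, as a function. -/
def expandFun (a : A) : PowerSeries K := PowerSeries.mk fun n => E.eps (E.sh^[n] a)

@[simp] theorem coeff_zero_expandFun (a : A) : coeff 0 (E.expandFun a) = E.eps a := by
  simp [expandFun]

@[simp] theorem constantCoeff_expandFun (a : A) : constantCoeff (E.expandFun a) = E.eps a := by
  rw [← coeff_zero_eq_constantCoeff_apply, coeff_zero_expandFun]

theorem coeff_succ_expandFun (n : ℕ) (a : A) :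
    coeff (n + 1) (E.expandFun a) = coeff n (E.expandFun (E.sh a)) := by
  simp [expandFun, Function.iterate_succ_apply]

theorem coeff_expandFun_add (n : ℕ) : ∀ a b : A,
    coeff n (E.expandFun (a + b)) = coeff n (E.expandFun a) + coeff n (E.expandFun b) := by
  induction n with
  | zero => intro a b; simp
  | succ n ih =>
    intro a b
    rw [coeff_succ_expandFun, coeff_succ_expandFun, coeff_succ_expandFun, sh_add, ih]

theorem expandFun_add (a b : A) : E.expandFun (a + b) = E.expandFun a + E.expandFun b := by
  ext n
  rw [map_add, coeff_expandFun_add]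

theorem coeff_expandFun_zero (n : ℕ) : coeff n (E.expandFun (0 : A)) = 0 := by
  induction n with
  | zero => simp
  | succ n ih => rw [coeff_succ_expandFun, sh_zero, ih]

theorem expandFun_zero : E.expandFun (0 : A) = 0 := by
  ext n
  rw [coeff_expandFun_zero, map_zero]

theorem expandFun_algebraMap (c : K) : E.expandFun (algebraMap K A c) = C c := by
  ext n
  rcases n with _ | n
  · simp
  · rw [coeff_succ_expandFun, sh_algebraMap, coeff_expandFun_zero, coeff_C]
    simp

theorem expandFun_one : E.expandFun (1 : A) = 1 := by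
  have := E.expandFun_algebraMap 1
  rwa [map_one, map_one] at this

theorem coeff_expandFun_smul (c : K) (n : ℕ) : ∀ b : A,
    coeff n (E.expandFun (algebraMap K A c * b)) = c * coeff n (E.expandFun b) := by
  induction n with
  | zero => intro b; simp
  | succ n ih =>
    intro b
    rw [coeff_succ_expandFun, coeff_succ_expandFun, sh_mul, sh_algebraMap, zero_mul, add_zero,
      eps_algebraMap, ih]

theorem coeff_expandFun_mul (n : ℕ) : ∀ a b : A,
    coeff n (E.expandFun (a * b)) = coeff n (E.expandFun a * E.expandFun b) := by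
  induction n with
  | zero => intro a b; simp
  | succ n ih =>
    intro a b
    rw [coeff_succ_expandFun, sh_mul, coeff_expandFun_add, coeff_expandFun_smul, ih,
      coeff_mul, coeff_mul, Finset.Nat.sum_antidiagonal_succ]
    simp only [coeff_succ_expandFun, coeff_zero_expandFun]

theorem expandFun_mul (a b : A) : E.expandFun (a * b) = E.expandFun a * E.expandFun b := by
  ext n
  exact E.coeff_expandFun_mul n a b

/-- **The `t`-adic expansion** `A →ₐ[K] K⟦X⟧`. -/
def expand : A →ₐ[K] PowerSeries K where
  toFun := E.expandFun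
  map_one' := E.expandFun_one
  map_mul' := E.expandFun_mul
  map_zero' := E.expandFun_zero
  map_add' := E.expandFun_add
  commutes' := fun c => by
    rw [E.expandFun_algebraMap]
    rfl

@[simp] theorem expand_apply (a : A) : E.expand a = E.expandFun a := rfl

@[simp] theorem constantCoeff_expand (a : A) : constantCoeff (E.expand a) = E.eps a := by
  rw [← coeff_zero_eq_constantCoeff_apply, expand_apply, coeff_zero_expandFun]

theorem expand_eq (a : A) : E.expand a = C (E.eps a) + X * E.expand (E.sh a) := by
  ext n
  rcases n with _ | n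
  · simp
  · rw [expand_apply, coeff_succ_expandFun, map_add, coeff_C, if_neg (Nat.succ_ne_zero n),
      zero_add, mul_comm, coeff_succ_mul_X, expand_apply]

theorem expand_t : E.expand E.t = X := by
  rw [expand_eq, eps_t, sh_t, map_zero, zero_add, map_one, mul_one]

theorem pow_dvd_of_expand_eq_zero (n : ℕ) : ∀ a : A, E.expand a = 0 → E.t ^ n ∣ a := by
  induction n with
  | zero => intro a _; simp
  | succ n ih =>
    intro a ha
    have h0 : E.eps a = 0 := by
      rw [← constantCoeff_expand, ha, map_zero]
    have h1 : E.expand (E.sh a) = 0 := by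
      ext m
      have := E.coeff_succ_expandFun m a
      rw [← expand_apply, ha, map_zero] at this
      rw [expand_apply, ← this, map_zero]
    obtain ⟨b, hb⟩ := ih _ h1
    refine ⟨b, ?_⟩
    conv_lhs => rw [E.dec a, h0, map_zero, zero_add, hb]
    ring

theorem X_dvd_expand_of_eps_eq_zero {a : A} (h : E.eps a = 0) : X ∣ E.expand a := by
  rw [PowerSeries.X_dvd_iff, constantCoeff_expand, h]

end ExpandData

end Fermat.Agent.Ribet.H751
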