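import Fermat.Agent.Lib.RR.Ord
import Fermat.Agent.Ribet.H751.LogHolExpand

/-!
# RIBET row 38, WALL-p, I3 leaf LOGHOL (helper751), part 2: the local expansion at a place

`F / K` a field extension, `v : Place K F` of degree one, `t ∈ F` with `ord_v t = 1`.  Then the
`t`-adic expansion is a `K`-algebra embedding

  `placeLaurent v hv ht : F →ₐ[K] K((X))`,  `t ↦ X`,

which maps `O_v` into `K⟦X⟧` and reflects integrality (`mem_of_placeLaurent_eq_ofPowerSeries`).
-/

set_option autoImplicit false

noncomputable section

open AlgebraicCurve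

namespace Fermat.Agent.Ribet.H751

open Fermat.Agent.Lib.RR

variable {K F : Type*} [Field K] [Field F] [Algebra K F]

section PlaceExpand

variable (v : Place K F) (hv : v.deg = 1) {t : F} (ht : v.ord t = 1)

include ht in
theorem unif_ne_zero : t ≠ 0 := ne_zero_of_ord_ne_zero v (by rw [ht]; norm_num)

include ht in
theorem unif_mem : t ∈ v.toValuationSubring := mem_of_ord_nonneg v (by rw [ht]; norm_num)

/-- the uniformiser as an element of `O_v` -/
def unifO : v.toValuationSubring := ⟨t, unif_mem v ht⟩

/-- the value of `a ∈ O_v` at `v` -/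
def epsO (a : v.toValuationSubring) : K :=
  (exists_const_sub v hv (ord_nonneg_of_mem v a.2)).choose

theorem epsO_spec (a : v.toValuationSubring) :
    (a : F) - algebraMap K F (epsO v hv a) = 0 ∨
      0 < v.ord ((a : F) - algebraMap K F (epsO v hv a)) :=
  (exists_const_sub v hv (ord_nonneg_of_mem v a.2)).choose_spec

include ht in
theorem div_unif_mem {x : F} (hx : x = 0 ∨ 0 < v.ord x) : x / t ∈ v.toValuationSubring := by
  rcases hx with rfl | hx
  · rw [zero_div]; exact zero_mem _
  · apply mem_of_ord_nonneg
    have hx0 : x ≠ 0 := ne_zero_of_ord_ne_zero v hx.ne'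
    rw [div_eq_mul_inv, v.ord_mul hx0 (inv_ne_zero (unif_ne_zero v ht)), v.ord_inv, ht]
    omega

/-- the shift `(a - a(v)) / t` -/
def shO (a : v.toValuationSubring) : v.toValuationSubring :=
  ⟨((a : F) - algebraMap K F (epsO v hv a)) / t, div_unif_mem v ht (epsO_spec v hv a)⟩

/-- The expansion data of a place of degree one with a uniformiser. -/
def placeExpandData : ExpandData K v.toValuationSubring where
  t := unifO v ht
  eps := epsO v hv
  sh := shO v hv ht
  dec := fun a => by
    apply Subtype.ext
    have ht0 := unif_ne_zero v ht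
    simp only [unifO, shO]
    push_cast
    rw [Place.coe_algebraMap]
    field_simp
    ring
  uniq := fun c b h => by
    have ht0 := unif_ne_zero v ht
    have h1 : algebraMap K F c + t * (b : F) = 0 := by
      have := congrArg Subtype.val h
      simpa [unifO] using this
    have hc : c = 0 := by
      by_contra hc
      have hb : (b : F) ≠ 0 := by
        intro hb
        rw [hb, mul_zero, add_zero] at h1
        exact hc ((map_eq_zero _).1 h1)
      have h2 : algebraMap K F c = -(t * (b : F)) := eq_neg_of_add_eq_zero_left h1
      have h3 := congrArg v.ord h2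
      rw [ord_algebraMap, ord_neg, v.ord_mul ht0 hb, ht] at h3
      have := ord_nonneg_of_mem v b.2
      omega
    refine ⟨hc, ?_⟩
    rw [hc, map_zero, zero_add] at h1
    rcases mul_eq_zero.1 h1 with h | h
    · exact absurd h ht0
    · exact Subtype.ext h

@[simp] theorem placeExpandData_t : (placeExpandData v hv ht).t = unifO v ht := rfl

theorem placeExpandData_eps_eq_zero {a : v.toValuationSubring}
    (ha : (a : F) = 0 ∨ 0 < v.ord (a : F)) : (placeExpandData v hv ht).eps a = 0 := by
  have ht0 := unif_ne_zero v ht
  refine (placeExpandData v hv ht).eps_eq (b := ⟨(a : F) / t, div_unif_mem v ht ha⟩) ?_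
  apply Subtype.ext
  simp only [placeExpandData_t, unifO, map_zero, zero_add]
  push_cast
  field_simp

theorem placeExpandData_eps_ne_zero {a : v.toValuationSubring} (ha0 : (a : F) ≠ 0)
    (ha : v.ord (a : F) = 0) : (placeExpandData v hv ht).eps a ≠ 0 := by
  intro h
  have ht0 := unif_ne_zero v ht
  have h1 := congrArg Subtype.val ((placeExpandData v hv ht).dec a)
  rw [h, map_zero, zero_add] at h1
  simp only [placeExpandData_t, unifO] at h1
  push_cast at h1
  have hb : (((placeExpandData v hv ht).sh a : v.toValuationSubring) : F) ≠ 0 := by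
    intro hb
    rw [hb, mul_zero] at h1
    exact ha0 h1
  have h2 := congrArg v.ord h1
  rw [ha, v.ord_mul ht0 hb, ht] at h2
  have := ord_nonneg_of_mem v ((placeExpandData v hv ht).sh a).2
  omega

/-- The expansion `O_v → K⟦X⟧`. -/
def placePower : v.toValuationSubring →ₐ[K] PowerSeries K := (placeExpandData v hv ht).expand

theorem placePower_unif : placePower v hv ht (unifO v ht) = PowerSeries.X :=
  (placeExpandData v hv ht).expand_t

theorem placePower_injective : Function.Injective (placePower v hv ht) := by
  rw [injective_iff_map_eq_zero]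
  intro a ha
  by_contra ha0
  have ht0 := unif_ne_zero v ht
  have haF : (a : F) ≠ 0 := fun h => ha0 (Subtype.ext h)
  obtain ⟨b, hb⟩ := (placeExpandData v hv ht).pow_dvd_of_expand_eq_zero
    ((v.ord (a : F)).toNat + 1) a ha
  have h1 : (a : F) = t ^ ((v.ord (a : F)).toNat + 1) * (b : F) := by
    have := congrArg Subtype.val hb
    simpa [unifO] using this
  have hbF : (b : F) ≠ 0 := by
    intro h
    rw [h, mul_zero] at h1
    exact haF h1
  have h2 := congrArg v.ord h1
  rw [v.ord_mul (pow_ne_zero _ ht0) hbF, ord_pow, ht] at h2
  have h3 := ord_nonneg_of_mem v b.2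
  have h4 := ord_nonneg_of_mem v a.2
  have h5 := Int.toNat_of_nonneg h4
  push_cast at h2
  omega

/-- the ring homomorphism `O_v → K((X))` -/
def placeLaurentO : v.toValuationSubring →+* LaurentSeries K :=
  (HahnSeries.ofPowerSeries ℤ K).comp (placePower v hv ht).toRingHom

theorem placeLaurentO_injective : Function.Injective (placeLaurentO v hv ht) :=
  HahnSeries.ofPowerSeries_injective.comp (placePower_injective v hv ht)

/-- the ring homomorphism `F → K((X))` -/
def placeLaurentRingHom : F →+* LaurentSeries K :=
  IsFractionRing.lift (placeLaurentO_injective v hv ht)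

theorem placeLaurentRingHom_coe (a : v.toValuationSubring) :
    placeLaurentRingHom v hv ht (a : F) =
      HahnSeries.ofPowerSeries ℤ K (placePower v hv ht a) :=
  IsFractionRing.lift_algebraMap (placeLaurentO_injective v hv ht) a

/-- **The local expansion at `v`** `F →ₐ[K] K((X))`. -/
def placeLaurent : F →ₐ[K] LaurentSeries K :=
  { placeLaurentRingHom v hv ht with
    commutes' := fun c => by
      have h1 : algebraMap K F c = ((algebraMap K v.toValuationSubring c : v.toValuationSubring) : F) :=
        rfl
      show placeLaurentRingHom v hv ht (algebraMap K F c) = _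
      rw [h1, placeLaurentRingHom_coe, AlgHom.commutes]
      rfl }

theorem placeLaurent_coe (a : v.toValuationSubring) :
    placeLaurent v hv ht (a : F) = HahnSeries.ofPowerSeries ℤ K (placePower v hv ht a) :=
  placeLaurentRingHom_coe v hv ht a

theorem placeLaurent_unif : placeLaurent v hv ht t = HahnSeries.single 1 1 := by
  have := placeLaurent_coe v hv ht (unifO v ht)
  rw [placePower_unif, HahnSeries.ofPowerSeries_X] at this
  exact this

theorem placeLaurent_injective : Function.Injective (placeLaurent v hv ht) :=
  (placeLaurent v hv ht).toRingHom.injective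

/-- the expansion of an element of the maximal ideal is divisible by `X` -/
theorem X_dvd_placePower {a : v.toValuationSubring} (ha : (a : F) = 0 ∨ 0 < v.ord (a : F)) :
    PowerSeries.X ∣ placePower v hv ht a :=
  (placeExpandData v hv ht).X_dvd_expand_of_eps_eq_zero (placeExpandData_eps_eq_zero v hv ht ha)

/-- the expansion of a unit is a unit -/
theorem isUnit_placePower {a : v.toValuationSubring} (ha0 : (a : F) ≠ 0)
    (ha : v.ord (a : F) = 0) : IsUnit (placePower v hv ht a) := by
  rw [PowerSeries.isUnit_iff_constantCoeff]
  have := placeExpandData_eps_ne_zero v hv ht ha0 ha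
  rw [placePower, ExpandData.constantCoeff_expand]
  exact isUnit_iff_ne_zero.mpr this

/-- **Integrality is reflected by the local expansion.** -/
theorem mem_of_placeLaurent_eq_ofPowerSeries {f : F} {s : PowerSeries K}
    (hs : placeLaurent v hv ht f = HahnSeries.ofPowerSeries ℤ K s) :
    f ∈ v.toValuationSubring := by
  by_contra hf
  have hord : v.ord f < 0 := by
    by_contra h
    exact hf (mem_of_ord_nonneg v (not_lt.mp h))
  have hf0 : f ≠ 0 := ne_zero_of_ord_ne_zero v hord.ne
  have hinv : 0 < v.ord f⁻¹ := by rw [v.ord_inv]; omega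
  have hmem : f⁻¹ ∈ v.toValuationSubring := mem_of_ord_nonneg v hinv.le
  obtain ⟨r, hr⟩ := X_dvd_placePower v hv ht (a := ⟨f⁻¹, hmem⟩) (Or.inr hinv)
  have h1 := placeLaurent_coe v hv ht ⟨f⁻¹, hmem⟩
  rw [hr] at h1
  have h2 : placeLaurent v hv ht f * placeLaurent v hv ht f⁻¹ = 1 := by
    rw [← map_mul, mul_inv_cancel₀ hf0, map_one]
  rw [hs, h1, ← map_mul, ← map_one (HahnSeries.ofPowerSeries ℤ K)] at h2
  have h3 := HahnSeries.ofPowerSeries_injective h2
  have h4 := congrArg PowerSeries.constantCoeff h3
  simp at h4

end PlaceExpand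

end Fermat.Agent.Ribet.H751
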