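import Fermat.Agent.S18.H602.Sep
import Fermat.Agent.Ribet.H751.LogHolPlace

/-!
# RIBET row 38, WALL-p, I3 leaf LOGHOL (helper751), part 3: the abstract core

`K` a perfect field of characteristic `p`, `F / K` a field extension, `v` a place of degree one of
`F / K`, `t` a uniformiser at `v` such that `F` is algebraic over `K(t)`, `h ∈ F^×` with
`p ∣ ord_v h`.  Let `j : F →ₐ[K] L` be an embedding into a field with a `K`-derivation `D`.  Then

  `D (j h) = j u · j h · D (j t)`  for some `u ∈ O_v`

(`exists_integral_logDer`): the logarithmic differential `dh / h = u dt` is regular at `v`.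

Proof: the local expansion `ι : F → K((X))` at `v` (part 2) and `d/dX` show that `h` is separable
over `K(t)` (helper602's `exists_sep_poly_of_derivation`); for a separable relation `P(t, h) = 0`
the chain rule gives `D (j h) = j w · D (j t)` and `d/dX (ι h) = ι w` with
`w = - P_X(t,h) / P_Y(t,h) ∈ F`.  Finally `ι h = X ^ (p m) · (unit of K⟦X⟧)` shows
`ι (w / h) ∈ K⟦X⟧`, i.e. `w / h ∈ O_v`.
-/

set_option autoImplicit false

noncomputable section

open AlgebraicCurve Polynomial IntermediateField

namespace Fermat.Agent.Ribet.H751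

open Fermat.Agent.Lib.RR

section Chain

variable {K : Type*} [Field K]

/-- coefficientwise derivative of a bivariate polynomial (`∂P/∂X` for `P ∈ K[X][Y]`) -/
def derivX (P : K[X][X]) : K[X][X] := P.sum fun n c => monomial n (derivative c)

theorem derivX_add (P Q : K[X][X]) : derivX (P + Q) = derivX P + derivX Q := by
  unfold derivX
  exact Polynomial.sum_add_index P Q _ (by simp) (by simp)

theorem derivX_monomial (n : ℕ) (c : K[X]) :
    derivX (monomial n c) = monomial n (derivative c) := by
  unfold derivX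
  exact Polynomial.sum_monomial_index c _ (by simp)

variable {B : Type*} [CommRing B] [Algebra K B]

/-- evaluation of a bivariate polynomial at `(x, y)` -/
def ev2 (x y : B) (P : K[X][X]) : B := eval₂ (aeval x : K[X] →ₐ[K] B).toRingHom y P

theorem ev2_add (x y : B) (P Q : K[X][X]) : ev2 x y (P + Q) = ev2 x y P + ev2 x y Q := by
  simp [ev2, eval₂_add]

theorem ev2_monomial (x y : B) (n : ℕ) (c : K[X]) :
    ev2 x y (monomial n c) = aeval x c * y ^ n := by
  simp [ev2, eval₂_monomial]

/-- **Chain rule** for a derivation and a bivariate polynomial. -/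
theorem derivation_ev2 (Δ : Derivation K B B) (x y : B) (P : K[X][X]) :
    Δ (ev2 x y P) = ev2 x y (derivX P) * Δ x + ev2 x y (derivative P) * Δ y := by
  induction P using Polynomial.induction_on' with
  | add P Q hP hQ =>
    rw [ev2_add, map_add, hP, hQ, derivX_add, ev2_add, derivative_add, ev2_add]
    ring
  | monomial n c =>
    rw [ev2_monomial, derivX_monomial, ev2_monomial, derivative_monomial, ev2_monomial,
      Derivation.leibniz, Derivation.leibniz_pow, Derivation.map_aeval]
    simp only [smul_eq_mul, nsmul_eq_mul, map_mul, map_natCast]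
    ring

/-- evaluation commutes with algebra homomorphisms -/
theorem map_ev2 {B' : Type*} [CommRing B'] [Algebra K B'] (φ : B →ₐ[K] B') (x y : B)
    (P : K[X][X]) : φ (ev2 x y P) = ev2 (φ x) (φ y) P := by
  unfold ev2
  have h := Polynomial.hom_eval₂ P (aeval x : K[X] →ₐ[K] B).toRingHom φ.toRingHom y
  have h2 : φ.toRingHom.comp (aeval x : K[X] →ₐ[K] B).toRingHom =
      (aeval (φ x) : K[X] →ₐ[K] B').toRingHom := by
    rw [Polynomial.aeval_algHom]
    rfl
  rw [h2] at h
  exact h

end Chain

section Transfer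

/-- Integrality over a simple extension is transported by algebra homomorphisms. -/
theorem isIntegral_adjoin_simple_map {K A B : Type*} [Field K] [Field A] [Field B]
    [Algebra K A] [Algebra K B] (ψ : A →ₐ[K] B) {x u : A}
    (h : IsIntegral (IntermediateField.adjoin K {x}) u) :
    IsIntegral (IntermediateField.adjoin K {ψ x}) (ψ u) := by
  have hmem : ∀ y : IntermediateField.adjoin K {x},
      ψ (y : A) ∈ IntermediateField.adjoin K {ψ x} := by
    intro y
    have h1 : ψ (y : A) ∈ (IntermediateField.adjoin K {x}).map ψ := ⟨y, y.2, rfl⟩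
    rwa [IntermediateField.adjoin_map, Set.image_singleton] at h1
  let φ' : IntermediateField.adjoin K {x} →+* IntermediateField.adjoin K {ψ x} :=
    { toFun := fun y => ⟨ψ (y : A), hmem y⟩
      map_one' := Subtype.ext (by simp)
      map_mul' := fun a b => Subtype.ext (by simp)
      map_zero' := Subtype.ext (by simp)
      map_add' := fun a b => Subtype.ext (by simp) }
  exact IsIntegral.map_of_comp_eq φ' ψ.toRingHom (by ext; rfl) h

end Transfer

section Laurent

variable {K : Type*} [Field K]

open Fermat.Agent.S18.H602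

theorem dq_single_one : dq (HahnSeries.single (1 : ℤ) (1 : K)) = 1 := by
  ext n
  rw [dq_coeff, HahnSeries.coeff_single, HahnSeries.coeff_one]
  by_cases hn : n = 0
  · subst hn
    simp
  · have : n + 1 ≠ 1 := by omega
    simp [hn, this]

end Laurent

section Main

open Fermat.Agent.S18.H602

variable {K F : Type*} [Field K] [Field F] [Algebra K F]

/-- For a separable relation `P(t, h) = 0` every derivation satisfies
`Δ h = w Δ t`, `w = - P_X / P_Y`. -/
theorem derivation_eq_of_sep {B : Type*} [Field B] [Algebra K B] (φ : F →ₐ[K] B)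
    (Δ : Derivation K B B) {t h w : F} {P : K[X][X]} (hP0 : ev2 t h P = 0)
    (hP1 : ev2 t h (derivative P) ≠ 0)
    (hw : w * ev2 t h (derivative P) = -(ev2 t h (derivX P))) :
    Δ (φ h) = φ w * Δ (φ t) := by
  have h1 := derivation_ev2 Δ (φ t) (φ h) P
  rw [← map_ev2, ← map_ev2, ← map_ev2, hP0, map_zero, map_zero] at h1
  have h2 : φ (ev2 t h (derivative P)) ≠ 0 := fun h => hP1 ((map_eq_zero φ).1 h)
  have h3 : φ w * φ (ev2 t h (derivative P)) = -φ (ev2 t h (derivX P)) := by
    rw [← map_mul, hw, map_neg]
  have h4 : φ (ev2 t h (derivative P)) * (Δ (φ h) - φ w * Δ (φ t)) = 0 := by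
    linear_combination h1.symm - Δ (φ t) * h3
  rcases mul_eq_zero.1 h4 with h5 | h5
  · exact absurd h5 h2
  · exact sub_eq_zero.1 h5

/-- In characteristic `p`, `p`-th powers are constants of every derivation. -/
theorem derivation_mul_pow_char {B : Type*} [Field B] [Algebra K B] (p : ℕ) [CharP B p]
    (Δ : Derivation K B B) (a x : B) : Δ (a * x ^ p) = x ^ p * Δ a := by
  rw [Derivation.leibniz, Derivation.leibniz_pow, nsmul_eq_mul, CharP.cast_eq_zero, zero_mul,
    smul_zero, zero_add, smul_eq_mul]

/-- **LOGHOL, abstract core.**  The logarithmic differential of a function whose order at a place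
`v` (of degree one) is divisible by the characteristic is regular at `v`. -/
theorem exists_integral_logDer [PerfectField K] (p : ℕ) [hp : Fact p.Prime] [CharP K p]
    {L : Type*} [Field L] [Algebra K L] (j : F →ₐ[K] L) (D : Derivation K L L)
    (v : Place K F) (hv : v.deg = 1) {t : F} (ht : v.ord t = 1)
    (halg : ∀ f : F, IsIntegral (IntermediateField.adjoin K {t}) f)
    {h : F} (h0 : h ≠ 0) (hdiv : (p : ℤ) ∣ v.ord h) :
    ∃ u ∈ v.toValuationSubring, D (j h) = j u * j h * D (j t) := by
  classical
  have ht0 : t ≠ 0 := unif_ne_zero v ht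
  set ι := placeLaurent v hv ht with hι
  have hιinj : Function.Injective ι := placeLaurent_injective v hv ht
  have hT : ι t = HahnSeries.single 1 1 := placeLaurent_unif v hv ht
  let d : FieldDerivation K (LaurentSeries K) := dqDerAlg K
  have hdT : d (ι t) = 1 := by
    rw [hT]
    exact dq_single_one
  have hdT0 : d (ι t) ≠ 0 := by
    rw [hdT]
    exact one_ne_zero
  -- a separable relation
  have hint : IsIntegral (IntermediateField.adjoin K {ι t}) (ι h) :=
    isIntegral_adjoin_simple_map ι (halg h)
  obtain ⟨P, hP0, hP1⟩ := exists_sep_poly_of_derivation d (ι t) hdT0 (ι h) hint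
  have hP0' : ev2 t h P = 0 := by
    apply hιinj
    rw [map_ev2, map_zero]
    exact hP0
  have hP1' : ev2 t h (derivative P) ≠ 0 := by
    intro h1
    apply hP1
    have := congrArg ι h1
    rw [map_ev2, map_zero] at this
    exact this
  -- the derivative `w = dh/dt`
  set w : F := -(ev2 t h (derivX P)) / ev2 t h (derivative P) with hw
  have hwmul : w * ev2 t h (derivative P) = -(ev2 t h (derivX P)) := by
    rw [hw]
    field_simp
  refine ⟨w / h, ?_, ?_⟩
  swap
  · rw [derivation_eq_of_sep j D hP0' hP1' hwmul, ← map_mul, div_mul_cancel₀ _ h0]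
  -- integrality
  have hkey2 : d (ι h) = ι w := by
    have := derivation_eq_of_sep ι d hP0' hP1' hwmul
    rw [hdT, mul_one] at this
    exact this
  -- `h = w₀ t ^ (p m)`
  obtain ⟨m, hm⟩ := hdiv
  set w₀ : F := h * (t ^ (v.ord h))⁻¹ with hw₀
  have hw₀0 : w₀ ≠ 0 := mul_ne_zero h0 (inv_ne_zero (zpow_ne_zero _ ht0))
  have hw₀ord : v.ord w₀ = 0 := by
    rw [hw₀, v.ord_mul h0 (inv_ne_zero (zpow_ne_zero _ ht0)), v.ord_inv, v.ord_zpow, ht]
    ring
  have hh : h = w₀ * (t ^ m) ^ p := by
    rw [hw₀, ← zpow_natCast, ← zpow_mul, mul_comm m, ← hm]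
    field_simp
  have hcharL : CharP (LaurentSeries K) p :=
    charP_of_injective_algebraMap (algebraMap K (LaurentSeries K)).injective p
  have hdh : d (ι h) = (ι (t ^ m)) ^ p * d (ι w₀) := by
    rw [hh, map_mul, map_pow]
    exact derivation_mul_pow_char p d (ι w₀) (ι (t ^ m))
  -- the unit part
  have hw₀mem : w₀ ∈ v.toValuationSubring := mem_of_ord_nonneg v hw₀ord.ge
  have hunit := isUnit_placePower v hv ht (a := ⟨w₀, hw₀mem⟩) hw₀0 hw₀ord
  obtain ⟨r', hr'⟩ := hunit.exists_right_inv
  set r := placePower v hv ht ⟨w₀, hw₀mem⟩ with hr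
  have hιw₀ : ι w₀ = HahnSeries.ofPowerSeries ℤ K r := placeLaurent_coe v hv ht ⟨w₀, hw₀mem⟩
  have hdw₀ : d (ι w₀) = HahnSeries.ofPowerSeries ℤ K (PowerSeries.derivative K r) := by
    rw [hιw₀]
    exact dq_ofPowerSeries r
  have hιtm : ι (t ^ m) ≠ 0 := by
    rw [Ne, map_eq_zero]
    exact zpow_ne_zero _ ht0
  have hιw₀0 : ι w₀ ≠ 0 := by
    rw [Ne, map_eq_zero]
    exact hw₀0
  have hfinal : ι (w / h) =
      HahnSeries.ofPowerSeries ℤ K (PowerSeries.derivative K r * r') := by
    have h1 : ι w₀ * HahnSeries.ofPowerSeries ℤ K r' = 1 := by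
      rw [hιw₀, ← map_mul, hr', map_one]
    rw [map_div₀, ← hkey2, hdh, hdw₀, map_mul]
    have h2 : ι h = ι w₀ * (ι (t ^ m)) ^ p := by
      conv_lhs => rw [hh]
      rw [map_mul, map_pow]
    rw [h2]
    rw [div_eq_iff (mul_ne_zero hιw₀0 (pow_ne_zero _ hιtm))]
    linear_combination (-(ι (t ^ m)) ^ p *
      HahnSeries.ofPowerSeries ℤ K (PowerSeries.derivative K r)) * h1
  exact mem_of_placeLaurent_eq_ofPowerSeries v hv ht hfinal

end Main

end Fermat.Agent.Ribet.H751
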