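import Fermat.Agent.Ribet.H764.I3Spec
import Fermat.Agent.Ribet.H751.LogHolCore
import Fermat.Agent.S18.H383.FF1Modular
import Fermat.Agent.S24.FFFinite

/-!
# RIBET row 38, WALL-p, I3 leaf LOGHOL (helper751): `dh / h` is holomorphic when `p ∣ div h`

`logHol : Fermat.Agent.Ribet.H764.I3.LogHolStatement` (frozen shape of `Ribet/H764/I3Spec.lean`,
verbatim).

For a place `Q` of `F = modularFunctionFieldFullC k M` with uniformiser `t` we take `t' = θ t`
(`θ = q d/dq`) and `u = (dh/dt) / h ∈ F`; the abstract core `exists_integral_logDer`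
(`LogHolCore.lean`) gives `u ∈ O_Q` and `d/dq h = u · h · d/dq t`, hence `g = θh / h = u · θt`.
Inputs: `FF1` for `F` (helper383, `S18/H383/FF1Modular.lean`) and the exchange lemma of S24.
-/

set_option autoImplicit false

open CuspForm ModularFormClass ModularCurve AlgebraicCurve

namespace Fermat.Agent.Ribet.H751

open Fermat.Agent.Ribet.H764.I3 Fermat.Agent.Lib.RR Fermat.Agent.S18.H602

/-- `θ = q d/dq` in terms of `d/dq`. -/
theorem isTheta_single_mul_dq {k : Type} [Field k] (f : LaurentSeries k) :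
    IsTheta f (HahnSeries.single 1 1 * dq f) := by
  intro n
  rw [HahnSeries.coeff_single_mul, one_mul, dq_coeff, sub_add_cancel, zsmul_eq_mul]

theorem eq_of_isTheta {k : Type} [Field k] {f f₁ f₂ : LaurentSeries k} (h₁ : IsTheta f f₁)
    (h₂ : IsTheta f f₂) : f₁ = f₂ := by
  ext n
  rw [h₁ n, h₂ n]

/-- **LOGHOL**: `dh/h` is holomorphic when `p ∣ div h`. -/
theorem logHol : LogHolStatement := by
  intro p M _ hp hpM k _ _ _ h h0 hdiv g hg Q t ht
  haveI : Fact p.Prime := ⟨hp⟩
  have hchar : ∀ ℓ : ℕ, ℓ.Prime → ℓ ∣ M → (ℓ : k) ≠ 0 := by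
    intro ℓ hℓ hℓM h0
    have h1 : p ∣ ℓ := (CharP.cast_eq_zero_iff k p ℓ).mp h0
    have h2 : p = ℓ := (Nat.prime_dvd_prime_iff_eq hp hℓ).mp h1
    exact hpM (h2 ▸ hℓM)
  have hFF : FF1 k (modularFunctionFieldFullC k M) :=
    Fermat.Agent.S18.H383.ff1_fullC k M hchar
  have hdeg : Q.deg = 1 := hFF.deg_eq_one Q
  have httr : Transcendental k t := by
    apply Fermat.Agent.S24.FF.transcendental_of_not_mem_range
    rintro ⟨c, hc⟩
    have := ord_algebraMap Q c
    rw [hc, ht] at this
    exact one_ne_zero this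
  obtain ⟨x, hx, hfin⟩ := hFF.exists_finite
  have hfin' : FiniteDimensional (IntermediateField.adjoin k {t}) (modularFunctionFieldFullC k M) :=
    Fermat.Agent.S24.FF.finiteDimensional_adjoin_of_transcendental hx httr
  have halg : ∀ f : modularFunctionFieldFullC k M,
      IsIntegral (IntermediateField.adjoin k {t}) f := fun f => IsIntegral.of_finite _ f
  obtain ⟨u, hu, hD⟩ := exists_integral_logDer p (modularFunctionFieldFullC k M).val
    (dqDerAlg k) Q hdeg ht halg h0 (hdiv Q)
  refine ⟨u, HahnSeries.single 1 1 * dq (t : LaurentSeries k), isTheta_single_mul_dq _, hu, ?_⟩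
  have hD' : dq (h : LaurentSeries k) = (u : LaurentSeries k) * (h : LaurentSeries k) *
      dq (t : LaurentSeries k) := hD
  have h1 : HahnSeries.ofPowerSeries ℤ k g * (h : LaurentSeries k) =
      HahnSeries.single 1 1 * dq (h : LaurentSeries k) :=
    eq_of_isTheta hg (isTheta_single_mul_dq _)
  have hh0 : (h : LaurentSeries k) ≠ 0 := fun hh => h0 (Subtype.ext hh)
  apply mul_right_cancel₀ hh0
  rw [h1, hD']
  ring

end Fermat.Agent.Ribet.H751
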