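import Fermat.Agent.Ribet.H764.I3At
import Fermat.Agent.Ribet.H751.LogHol

/-!
# RIBET row 38, WALL-p, I3 leaf LOGHOL (helper751): the per-field forms `LogHolAt`

Adapters of `logHol` to the per-`k` shape `H764.I3.LogHolAt p M k` of `Ribet/H764/I3At.lean`:

* `logHolAt hp hpM k` for every algebraically closed `k` of characteristic `p ∤ M`;
* `logHolAt_residue hp hpM A hA` for `k = IsLocalRing.ResidueField A`, `A` a valuation subring of
  `ℚ̄` over `p` (the field of the wall); no instance arguments.
-/

set_option autoImplicit false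

open CuspForm ModularFormClass ModularCurve AlgebraicCurve

namespace Fermat.Agent.Ribet.H751

open Fermat.Agent.Ribet.H764.I3

/-- **LOGHOL at `k`**, `k` algebraically closed of characteristic `p ∤ M`. -/
theorem logHolAt {p M : ℕ} [NeZero M] (hp : p.Prime) (hpM : ¬ p ∣ M) (k : Type) [Field k]
    [IsAlgClosed k] [CharP k p] : LogHolAt p M k :=
  logHol p M hp hpM k

/-- the residue field of a valuation subring over `p` has characteristic `p` -/
theorem charP_residueField_of_liesOver {L : Type} [Field L] (A : ValuationSubring L) {p : ℕ}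
    (hp : p.Prime) (hA : A.LiesOverPrime p) : CharP (IsLocalRing.ResidueField A) p := by
  refine (CharP.charP_iff_prime_eq_zero hp).2 ?_
  obtain ⟨ha, hm⟩ := (ValuationSubring.mem_nonunits_iff_exists_mem_maximalIdeal).mp hA
  have h1 : (⟨(p : L), ha⟩ : A) = ((p : ℕ) : A) := by
    apply Subtype.ext; simp
  rw [h1, ← IsLocalRing.residue_eq_zero_iff, map_natCast] at hm
  exact hm

/-- **LOGHOL at the residue field** of a valuation subring of `ℚ̄` over `p ∤ M`. -/
theorem logHolAt_residue {p M : ℕ} [NeZero M] (hp : p.Prime) (hpM : ¬ p ∣ M)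
    (A : ValuationSubring (AlgebraicClosure ℚ)) (hA : A.LiesOverPrime p) :
    LogHolAt p M (IsLocalRing.ResidueField A) := by
  haveI := Fermat.Agent.S18.H9.resAlgClosed _ A
  haveI := charP_residueField_of_liesOver A hp hA
  exact logHolAt hp hpM _

end Fermat.Agent.Ribet.H751
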