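import Fermat.Agent.Ribet.H751.LogHol

/-!
# RIBET row 38, WALL-p (helper751): CONVERSE LOGHOL and `θ t ≠ 0` at uniformisers

Complements of `LogHolCore.lean` / `LogHol.lean` (same tools: the local expansion
`placeLaurent` at a place of degree one and helper602's separability lemma).

Abstract (`K` perfect of characteristic `p`, `v` a place of degree one of `F / K`, `t` a
uniformiser at `v`, `F` algebraic over `K(t)`, `j : F →ₐ[K] L`, `D` a `K`-derivation of `L`):

* `exists_deriv_pair` : `dh/dt ∈ F`: there is `w ∈ F` with `D (j h) = j w · D (j t)` and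
  `d/dX (ι h) = ι w` (`ι = placeLaurent`);
* `derivation_unif_ne_zero` : `D (j x) ≠ 0` for some `x ∈ F` ⟹ `D (j t) ≠ 0`;
* `dvd_ord_of_integral_logDer` : **converse of** `exists_integral_logDer`:
  `D (j h) = j u · j h · D (j t)` with `u ∈ O_v`, `D (j t) ≠ 0` ⟹ `p ∣ ord_v h`.

For `F = modularFunctionFieldFullC k M` (`k` algebraically closed of characteristic `p ∤ M`):

* `dq_unif_ne_zero` : `d/dq t ≠ 0` for every uniformiser `t` at every place;
* `dvd_ord_of_holoAt` : if `g = θh / h = u · θt` with `u` regular at `Q` for ONE uniformiser `t`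
  at `Q`, then `p ∣ ord_Q h`;
* `convLogHol : ConvLogHolStatement` : `dh / h` holomorphic ⟹ `p ∣ div h`.
-/

set_option autoImplicit false

noncomputable section

open AlgebraicCurve Polynomial IntermediateField ModularCurve

namespace Fermat.Agent.Ribet.H751

open Fermat.Agent.Lib.RR Fermat.Agent.S18.H602 Fermat.Agent.Ribet.H764.I3

section Core

variable {K F : Type*} [Field K] [Field F] [Algebra K F]

/-- **`dh/dt ∈ F`.**  There is `w ∈ F` such that `D (j h) = j w · D (j t)` for the given
derivation and `d/dX (ι h) = ι w` in the local expansion at `v`. -/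
theorem exists_deriv_pair [PerfectField K] {L : Type*} [Field L] [Algebra K L]
    (j : F →ₐ[K] L) (D : Derivation K L L) (v : Place K F) (hv : v.deg = 1) {t : F}
    (ht : v.ord t = 1) (halg : ∀ f : F, IsIntegral (IntermediateField.adjoin K {t}) f) (h : F) :
    ∃ w : F, D (j h) = j w * D (j t) ∧
      dq (placeLaurent v hv ht h) = placeLaurent v hv ht w := by
  classical
  set ι := placeLaurent v hv ht with hι
  have hιinj : Function.Injective ι := placeLaurent_injective v hv ht
  have hT : ι t = HahnSeries.single 1 1 := placeLaurent_unif v hv ht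
  let d : FieldDerivation K (LaurentSeries K) := dqDerAlg K
  have hdT : d (ι t) = 1 := by
    rw [hT]
    exact dq_single_one
  have hdT0 : d (ι t) ≠ 0 := by
    rw [hdT]
    exact one_ne_zero
  have hint : IsIntegral (IntermediateField.adjoin K {ι t}) (ι h) :=
    isIntegral_adjoin_simple_map ι (halg h)
  obtain ⟨P, hP0, hP1⟩ := exists_sep_poly_of_derivation d (ι t) hdT0 (ι h) hint
  have hP0' : ev2 t h P = 0 := by
    apply hιinj
    rw [map_ev2, map_zero]
    exact hP0
  have hP1' : ev2 t h (derivative P) ≠ 0 := by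
    intro h1
    apply hP1
    have := congrArg ι h1
    rw [map_ev2, map_zero] at this
    exact this
  set w : F := -(ev2 t h (derivX P)) / ev2 t h (derivative P) with hw
  have hwmul : w * ev2 t h (derivative P) = -(ev2 t h (derivX P)) := by
    rw [hw]
    field_simp
  refine ⟨w, derivation_eq_of_sep j D hP0' hP1' hwmul, ?_⟩
  have := derivation_eq_of_sep ι d hP0' hP1' hwmul
  rw [hdT, mul_one] at this
  exact this

/-- A uniformiser at a place of degree one is a separating element: no nonzero derivation kills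
it. -/
theorem derivation_unif_ne_zero [PerfectField K] {L : Type*} [Field L] [Algebra K L]
    (j : F →ₐ[K] L) (D : Derivation K L L) (v : Place K F) (hv : v.deg = 1) {t : F}
    (ht : v.ord t = 1) (halg : ∀ f : F, IsIntegral (IntermediateField.adjoin K {t}) f) {x : F}
    (hx : D (j x) ≠ 0) : D (j t) ≠ 0 := by
  obtain ⟨w, hw, -⟩ := exists_deriv_pair j D v hv ht halg x
  intro h0
  rw [h0, mul_zero] at hw
  exact hx hw

/-- `Δ (x ^ n) = n x ^ (n-1) Δ x` for integer exponents. -/
theorem derivation_zpow {B : Type*} [Field B] [Algebra K B] (Δ : Derivation K B B) (x : B)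
    (hx : x ≠ 0) (n : ℤ) : Δ (x ^ n) = (n : B) * x ^ (n - 1) * Δ x := by
  induction n using Int.induction_on with
  | zero => simp
  | succ k ih =>
      have h1 : x ^ ((k : ℤ) + 1) = x ^ (k : ℤ) * x := zpow_add_one₀ hx _
      rw [h1, Derivation.leibniz, ih, smul_eq_mul, smul_eq_mul, add_sub_cancel_right]
      have h2 : x ^ (k : ℤ) = x ^ ((k : ℤ) - 1) * x := by
        rw [← zpow_add_one₀ hx, sub_add_cancel]
      rw [h2]
      push_cast
      ring
  | pred k ih =>
      have h1 : x ^ (-(k : ℤ) - 1) = x ^ (-(k : ℤ)) * x⁻¹ := zpow_sub_one₀ hx _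
      rw [h1, Derivation.leibniz, ih, Derivation.leibniz_inv, smul_eq_mul, smul_eq_mul,
        smul_eq_mul]
      have h2 : x ^ (-(k : ℤ) - 1 - 1) = x ^ (-(k : ℤ)) * x⁻¹ * x⁻¹ := by
        rw [zpow_sub_one₀ hx, zpow_sub_one₀ hx]
      have h3 : x ^ (-(k : ℤ) - 1) = x ^ (-(k : ℤ)) * x⁻¹ := zpow_sub_one₀ hx _
      rw [h2, h3]
      push_cast
      field_simp
      ring

/-- `Δ (a xⁿ) · x = (Δ a · x + n a Δ x) xⁿ`. -/
theorem derivation_mul_zpow {B : Type*} [Field B] [Algebra K B] (Δ : Derivation K B B)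
    (a x : B) (hx : x ≠ 0) (n : ℤ) :
    Δ (a * x ^ n) * x = (Δ a * x + (n : B) * a * Δ x) * x ^ n := by
  rw [Derivation.leibniz, derivation_zpow Δ x hx, smul_eq_mul, smul_eq_mul]
  have h2 : x ^ n = x ^ (n - 1) * x := by
    rw [← zpow_add_one₀ hx, sub_add_cancel]
  rw [h2]
  ring

/-- **CONVERSE LOGHOL, abstract core.**  If the logarithmic differential `dh / h = u dt` is regular
at a place `v` of degree one (and `dt ≠ 0`), then the characteristic divides `ord_v h`. -/
theorem dvd_ord_of_integral_logDer [PerfectField K] (p : ℕ) [CharP K p]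
    {L : Type*} [Field L] [Algebra K L] (j : F →ₐ[K] L) (D : Derivation K L L)
    (v : Place K F) (hv : v.deg = 1) {t : F} (ht : v.ord t = 1)
    (halg : ∀ f : F, IsIntegral (IntermediateField.adjoin K {t}) f) (hDt : D (j t) ≠ 0)
    {h : F} (h0 : h ≠ 0) {u : F} (hu : u ∈ v.toValuationSubring)
    (hD : D (j h) = j u * j h * D (j t)) : (p : ℤ) ∣ v.ord h := by
  classical
  have ht0 : t ≠ 0 := unif_ne_zero v ht
  obtain ⟨w, hw, hdw⟩ := exists_deriv_pair j D v hv ht halg h
  set ι := placeLaurent v hv ht with hι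
  -- `w = u h`
  have hwu : w = u * h := by
    apply j.toRingHom.injective
    have h1 : j w * D (j t) = j u * j h * D (j t) := by rw [← hw, hD]
    have h2 := mul_right_cancel₀ hDt h1
    show j w = j (u * h)
    rw [h2, map_mul]
  let d : FieldDerivation K (LaurentSeries K) := dqDerAlg K
  have hdh : d (ι h) = ι u * ι h := by
    show dq (ι h) = _
    rw [hdw, hwu, map_mul]
  -- `h = w₀ t ^ n`
  set n : ℤ := v.ord h with hn
  set w₀ : F := h * (t ^ n)⁻¹ with hw₀
  have hw₀0 : w₀ ≠ 0 := mul_ne_zero h0 (inv_ne_zero (zpow_ne_zero _ ht0))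
  have hw₀ord : v.ord w₀ = 0 := by
    rw [hw₀, v.ord_mul h0 (inv_ne_zero (zpow_ne_zero _ ht0)), v.ord_inv, v.ord_zpow, ht]
    ring
  have hh : h = w₀ * t ^ n := by
    rw [hw₀]
    field_simp
  have hw₀mem : w₀ ∈ v.toValuationSubring := mem_of_ord_nonneg v hw₀ord.ge
  obtain ⟨r, hr⟩ : ∃ r : PowerSeries K, r = placePower v hv ht ⟨w₀, hw₀mem⟩ := ⟨_, rfl⟩
  have hr0 : PowerSeries.constantCoeff r ≠ 0 := by
    have := isUnit_placePower v hv ht (a := ⟨w₀, hw₀mem⟩) hw₀0 hw₀ord
    rw [← hr, PowerSeries.isUnit_iff_constantCoeff] at this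
    exact this.ne_zero
  obtain ⟨a, ha⟩ : ∃ a : PowerSeries K, a = placePower v hv ht ⟨u, hu⟩ := ⟨_, rfl⟩
  have hιw₀ : ι w₀ = HahnSeries.ofPowerSeries ℤ K r := by
    rw [hr]
    exact placeLaurent_coe v hv ht ⟨w₀, hw₀mem⟩
  have hιu : ι u = HahnSeries.ofPowerSeries ℤ K a := by
    rw [ha]
    exact placeLaurent_coe v hv ht ⟨u, hu⟩
  have hιt : ι t = HahnSeries.ofPowerSeries ℤ K PowerSeries.X := by
    rw [HahnSeries.ofPowerSeries_X]
    exact placeLaurent_unif v hv ht
  have hdt : d (ι t) = 1 := by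
    rw [placeLaurent_unif v hv ht]
    exact dq_single_one
  have hdw₀ : d (ι w₀) = HahnSeries.ofPowerSeries ℤ K (PowerSeries.derivative K r) := by
    rw [hιw₀]
    exact dq_ofPowerSeries r
  have hιt0 : ι t ≠ 0 := by
    rw [Ne, map_eq_zero]
    exact ht0
  -- the key identity
  have hkey : ι u * ι w₀ * ι t = d (ι w₀) * ι t + (n : LaurentSeries K) * ι w₀ := by
    have h1 := derivation_mul_zpow d (ι w₀) (ι t) hιt0 n
    have h2 : ι h = ι w₀ * ι t ^ n := by
      conv_lhs => rw [hh]
      rw [map_mul, map_zpow₀]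
    rw [← h2, hdh, h2, hdt, mul_one] at h1
    have h3 : ι t ^ n ≠ 0 := zpow_ne_zero _ hιt0
    apply mul_right_cancel₀ h3
    linear_combination h1
  have hn' : (n : LaurentSeries K) = HahnSeries.ofPowerSeries ℤ K (n : PowerSeries K) := by
    rw [map_intCast]
  have hkey' : HahnSeries.ofPowerSeries ℤ K (a * r * PowerSeries.X) =
      HahnSeries.ofPowerSeries ℤ K
        (PowerSeries.derivative K r * PowerSeries.X + (n : PowerSeries K) * r) := by
    rw [map_add, map_mul, map_mul, map_mul, map_mul, ← hιu, ← hιw₀, ← hιt, ← hdw₀, ← hn']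
    exact hkey
  have hkey2 := HahnSeries.ofPowerSeries_injective hkey'
  have hkey3 := congrArg PowerSeries.constantCoeff hkey2
  simp only [map_mul, map_add, PowerSeries.constantCoeff_X, mul_zero, zero_add, map_intCast]
    at hkey3
  have hn0 : (n : K) = 0 := by
    rcases mul_eq_zero.1 hkey3.symm with h | h
    · exact h
    · exact absurd h hr0
  exact (CharP.intCast_eq_zero_iff K p n).mp hn0

end Core

section Modular

variable {p M : ℕ} [NeZero M] {k : Type} [Field k] [IsAlgClosed k] [CharP k p]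

/-- standing facts on `F_k = modularFunctionFieldFullC k M`, `p ∤ M` -/
theorem fullC_setup (hp : p.Prime) (hpM : ¬ p ∣ M)
    (Q : Place k (modularFunctionFieldFullC k M)) {t : modularFunctionFieldFullC k M}
    (ht : Q.ord t = 1) :
    Q.deg = 1 ∧ ∀ f : modularFunctionFieldFullC k M,
      IsIntegral (IntermediateField.adjoin k {t}) f := by
  have hchar : ∀ ℓ : ℕ, ℓ.Prime → ℓ ∣ M → (ℓ : k) ≠ 0 := by
    intro ℓ hℓ hℓM h0
    have h1 : p ∣ ℓ := (CharP.cast_eq_zero_iff k p ℓ).mp h0
    have h2 : p = ℓ := (Nat.prime_dvd_prime_iff_eq hp hℓ).mp h1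
    exact hpM (h2 ▸ hℓM)
  have hFF : FF1 k (modularFunctionFieldFullC k M) :=
    Fermat.Agent.S18.H383.ff1_fullC k M hchar
  have httr : Transcendental k t := by
    apply Fermat.Agent.S24.FF.transcendental_of_not_mem_range
    rintro ⟨c, hc⟩
    have := ord_algebraMap Q c
    rw [hc, ht] at this
    exact one_ne_zero this
  obtain ⟨x, hx, hfin⟩ := hFF.exists_finite
  have hfin' : FiniteDimensional (IntermediateField.adjoin k {t})
      (modularFunctionFieldFullC k M) :=
    Fermat.Agent.S24.FF.finiteDimensional_adjoin_of_transcendental hx httr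
  exact ⟨hFF.deg_eq_one Q, fun f => IsIntegral.of_finite _ f⟩

/-- **`θ t ≠ 0` at uniformisers**: a uniformiser at a place of `F_k` is not in `k((q^p))`. -/
theorem dq_unif_ne_zero (hp : p.Prime) (hpM : ¬ p ∣ M)
    (Q : Place k (modularFunctionFieldFullC k M)) {t : modularFunctionFieldFullC k M}
    (ht : Q.ord t = 1) : dq (t : LaurentSeries k) ≠ 0 := by
  obtain ⟨hdeg, halg⟩ := fullC_setup hp hpM Q ht
  have hx : dqDerAlg k ((modularFunctionFieldFullC k M).val
      ⟨jqModC k, jqModC_mem_full k M⟩) ≠ 0 := by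
    show dq (jqModC k) ≠ 0
    apply dq_ne_zero_of_coeff_neg_one
    rw [ModularCurve.coeff_jqModC_neg_one]
    exact one_ne_zero
  exact derivation_unif_ne_zero (modularFunctionFieldFullC k M).val (dqDerAlg k) Q hdeg ht halg hx

/-- **CONVERSE LOGHOL at one place**: if `g = θh / h` equals `u · θt` with `u` regular at `Q`, for
ONE uniformiser `t` at `Q`, then `p ∣ ord_Q h`. -/
theorem dvd_ord_of_holoAt (hp : p.Prime) (hpM : ¬ p ∣ M)
    {h : modularFunctionFieldFullC k M} (h0 : h ≠ 0) {g : PowerSeries k}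
    (hg : IsDlog (h : LaurentSeries k) g)
    (Q : Place k (modularFunctionFieldFullC k M)) {t : modularFunctionFieldFullC k M}
    (ht : Q.ord t = 1) {u : modularFunctionFieldFullC k M} {t' : LaurentSeries k}
    (hθ : IsTheta (t : LaurentSeries k) t') (hu : u ∈ Q.toValuationSubring)
    (hgu : HahnSeries.ofPowerSeries ℤ k g = (u : LaurentSeries k) * t') :
    (p : ℤ) ∣ Q.ord h := by
  haveI : Fact p.Prime := ⟨hp⟩
  obtain ⟨hdeg, halg⟩ := fullC_setup hp hpM Q ht
  have hDt := dq_unif_ne_zero hp hpM Q ht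
  have ht' : t' = HahnSeries.single 1 1 * dq (t : LaurentSeries k) :=
    eq_of_isTheta hθ (isTheta_single_mul_dq _)
  have h1 : HahnSeries.ofPowerSeries ℤ k g * (h : LaurentSeries k) =
      HahnSeries.single 1 1 * dq (h : LaurentSeries k) :=
    eq_of_isTheta hg (isTheta_single_mul_dq _)
  have hq0 : (HahnSeries.single (1 : ℤ) (1 : k)) ≠ 0 := by
    rw [Ne, HahnSeries.single_eq_zero_iff]
    exact one_ne_zero
  have hD : dq (h : LaurentSeries k) =
      (u : LaurentSeries k) * (h : LaurentSeries k) * dq (t : LaurentSeries k) := by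
    apply mul_left_cancel₀ hq0
    rw [← h1, hgu, ht']
    ring
  exact dvd_ord_of_integral_logDer p (modularFunctionFieldFullC k M).val (dqDerAlg k) Q hdeg ht
    halg hDt h0 hu hD

/-- (CONVERSE LOGHOL) `dh / h` holomorphic ⟹ `p ∣ div h`. -/
def ConvLogHolStatement : Prop :=
  ∀ (p M : ℕ) [NeZero M], p.Prime → ¬ p ∣ M →
    ∀ (k : Type) [Field k] [IsAlgClosed k] [CharP k p]
      (h : modularFunctionFieldFullC k M), h ≠ 0 →
      ∀ g : PowerSeries k, IsDlog (h : LaurentSeries k) g → IsHoloSeries k M g →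
        ∀ Q : Place k (modularFunctionFieldFullC k M), (p : ℤ) ∣ Q.ord h

omit [NeZero M] [IsAlgClosed k] [CharP k p] in
/-- **CONVERSE LOGHOL.** -/
theorem convLogHol : ConvLogHolStatement := by
  intro p M _ hp hpM k _ _ _ h h0 g hg hholo Q
  obtain ⟨t, ht⟩ := exists_ord_eq_one Q
  obtain ⟨u, t', hθ, hu, hgu⟩ := hholo Q t ht
  exact dvd_ord_of_holoAt hp hpM h0 hg Q ht hθ hu hgu

end Modular

end Fermat.Agent.Ribet.H751
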