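import Fermat.Agent.Ribet.H751.LogHolConv

/-!
# RIBET row 38, WALL-p (helper751): change of uniformiser for holomorphic `q`-series

Same tools as `LogHolCore.lean` / `LogHolConv.lean`.

Abstract (`K` perfect, `v` a place of degree one of `F / K`, `t` a uniformiser at `v`, `F` algebraic
over `K(t)`, `j : F →ₐ[K] L`, `D` a `K`-derivation of `L`):

* `exists_deriv_integral` : `d/dt` preserves `O_v`: for `f ∈ O_v` there is `w ∈ O_v` with
  `D (j f) = j w · D (j t)`.

For `F = modularFunctionFieldFullC k M` (`k` algebraically closed of characteristic `p ∤ M`):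

* `holoAt_change_unif` : if `g = u₀ · θ t₀` with `u₀` regular at `Q` for ONE uniformiser `t₀` at
  `Q`, then `g = u · θ t` with `u` regular at `Q` for EVERY uniformiser `t` at `Q`;
* `isHoloSeries_of_exists_unif` : `IsHoloSeries k M g` can be checked with one uniformiser at
  each place.
-/

set_option autoImplicit false

noncomputable section

open AlgebraicCurve Polynomial IntermediateField ModularCurve

namespace Fermat.Agent.Ribet.H751

open Fermat.Agent.Lib.RR Fermat.Agent.S18.H602 Fermat.Agent.Ribet.H764.I3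

section Core

variable {K F : Type*} [Field K] [Field F] [Algebra K F]

/-- **`d/dt` preserves the valuation ring**: for `f ∈ O_v` the derivative `w = df/dt` lies in
`O_v`. -/
theorem exists_deriv_integral [PerfectField K] {L : Type*} [Field L] [Algebra K L]
    (j : F →ₐ[K] L) (D : Derivation K L L) (v : Place K F) (hv : v.deg = 1) {t : F}
    (ht : v.ord t = 1) (halg : ∀ f : F, IsIntegral (IntermediateField.adjoin K {t}) f)
    {f : F} (hf : f ∈ v.toValuationSubring) :
    ∃ w ∈ v.toValuationSubring, D (j f) = j w * D (j t) := by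
  obtain ⟨w, hw, hdw⟩ := exists_deriv_pair j D v hv ht halg f
  refine ⟨w, ?_, hw⟩
  have h1 : placeLaurent v hv ht f =
      HahnSeries.ofPowerSeries ℤ K (placePower v hv ht ⟨f, hf⟩) :=
    placeLaurent_coe v hv ht ⟨f, hf⟩
  rw [h1, dq_ofPowerSeries] at hdw
  exact mem_of_placeLaurent_eq_ofPowerSeries v hv ht hdw.symm

end Core

section Modular

variable {p M : ℕ} [NeZero M] {k : Type} [Field k] [IsAlgClosed k] [CharP k p]

/-- **Change of uniformiser.**  If `g = u₀ · θ t₀` with `u₀` regular at `Q` for one uniformiser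
`t₀` at `Q`, then the same holds for every uniformiser `t` at `Q`. -/
theorem holoAt_change_unif (hp : p.Prime) (hpM : ¬ p ∣ M) {g : PowerSeries k}
    (Q : Place k (modularFunctionFieldFullC k M)) {t₀ t : modularFunctionFieldFullC k M}
    (ht₀ : Q.ord t₀ = 1) (ht : Q.ord t = 1) {u₀ : modularFunctionFieldFullC k M}
    {t₀' : LaurentSeries k} (hθ₀ : IsTheta (t₀ : LaurentSeries k) t₀')
    (hu₀ : u₀ ∈ Q.toValuationSubring)
    (hg : HahnSeries.ofPowerSeries ℤ k g = (u₀ : LaurentSeries k) * t₀') :
    ∃ (u : modularFunctionFieldFullC k M) (t' : LaurentSeries k),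
      IsTheta (t : LaurentSeries k) t' ∧ u ∈ Q.toValuationSubring ∧
      HahnSeries.ofPowerSeries ℤ k g = (u : LaurentSeries k) * t' := by
  obtain ⟨hdeg, halg⟩ := fullC_setup hp hpM Q ht
  have ht₀mem : t₀ ∈ Q.toValuationSubring := unif_mem Q ht₀
  obtain ⟨w, hw, hD⟩ := exists_deriv_integral (modularFunctionFieldFullC k M).val (dqDerAlg k) Q
    hdeg ht halg ht₀mem
  have hD' : dq (t₀ : LaurentSeries k) = (w : LaurentSeries k) * dq (t : LaurentSeries k) := hD
  have ht₀' : t₀' = HahnSeries.single 1 1 * dq (t₀ : LaurentSeries k) :=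
    eq_of_isTheta hθ₀ (isTheta_single_mul_dq _)
  refine ⟨u₀ * w, HahnSeries.single 1 1 * dq (t : LaurentSeries k), isTheta_single_mul_dq _,
    mul_mem hu₀ hw, ?_⟩
  rw [hg, ht₀', hD']
  show _ = (u₀ : LaurentSeries k) * (w : LaurentSeries k) * _
  ring

omit [IsAlgClosed k] [CharP k p] in
/-- **`IsHoloSeries` with one uniformiser per place.** -/
theorem isHoloSeries_of_exists_unif [IsAlgClosed k] [CharP k p] (hp : p.Prime) (hpM : ¬ p ∣ M)
    {g : PowerSeries k}
    (h : ∀ Q : Place k (modularFunctionFieldFullC k M),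
      ∃ (t₀ u₀ : modularFunctionFieldFullC k M) (t₀' : LaurentSeries k), Q.ord t₀ = 1 ∧
        IsTheta (t₀ : LaurentSeries k) t₀' ∧ u₀ ∈ Q.toValuationSubring ∧
        HahnSeries.ofPowerSeries ℤ k g = (u₀ : LaurentSeries k) * t₀') :
    IsHoloSeries k M g := by
  intro Q t ht
  obtain ⟨t₀, u₀, t₀', ht₀, hθ₀, hu₀, hg⟩ := h Q
  exact holoAt_change_unif hp hpM Q ht₀ ht hθ₀ hu₀ hg

end Modular

end Fermat.Agent.Ribet.H751
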